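import Fermat.Agent.S59.TW.H658.EmbH
import Fermat.Agent.S59.TW.H658.HeckeRel
import Fermat.Agent.S59.TW.H564.TwistChar
import Fermat.Agent.S59.TW.H564.TwistBundle

/-!
# S59 / TW and row HARD (helper47): the concrete twist hypothesis `TwistHyp`

`H658.embHyp_of_odd` gives the ABSTRACT transfer hypothesis `EmbHyp K N' u` (an injective
intertwiner `J`).  The dictionary "Betti point → twisted eigenform → newform of level `q²`"
(`H561.exists_twisted_eigenvector`, `H54.twistL_anemic_exists_newform`) needs the CONCRETE one,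
`H658.TwistHyp K N' u`: every character `χ` trivial on `K` has a `TwistDatum` (twisting characters
`ψ_q`, list `L` of ramified primes) with `psiL(ℓ) = χ(u ℓ)`.

* `twistHyp_of_odd` : `TwistHyp K N' (fun ℓ => uCls M ℓ ^ m)` under EXACTLY the hypotheses of
  `H658.embHyp_of_odd` (Taylor–Wiles shape: `Γ₀(M) ∩ Γ₁(∏ Qs) ⊆ K`, `γ^(2m+1) ∈ K`,
  `M · ∏ Qs ∣ N'`); the datum is `H564.exists_psi` (`L = ramList`, `ψ_q = χ_q^m`);
* `TwistDatum.mem_L_of_ne_one` : a prime `q₀` at which `χ` is ramified belongs to the list `L`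
  of ANY twist datum of `χ` (so that `TW-NS` applies at `q₀`): if `d` is prime to `N'`,
  `d ≡ 1` modulo every `q ∈ L`, `q ≠ q₀`, and `χ(d) ≠ 1`, then `q₀ ∈ L`.
-/

set_option autoImplicit false
set_option linter.unusedSectionVars false
set_option linter.style.haveILetI false

noncomputable section

namespace Fermat.Agent.S59.TW.H47

open CongruenceSubgroup ModularForm
open UpperHalfPlane hiding I
open Matrix.SpecialLinearGroup
open Fermat.Agent.S59.TW.H653 Fermat.Agent.S59.TW.H564 Fermat.Agent.S59.TW.H658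
open scoped Manifold MatrixGroups ModularForm

variable {M : ℕ} {K : Subgroup SL(2, ℤ)}

/-- **The concrete twist hypothesis** (Taylor–Wiles shape), under the hypotheses of
`H658.embHyp_of_odd`. -/
theorem twistHyp_of_odd [NeZero M] (_hK : IsMid M K) (Qs : List ℕ) (hnd : Qs.Nodup)
    (hQs : ∀ q ∈ Qs, q.Prime ∧ ∃ M' : ℕ, M = M' * q ∧ Nat.Coprime M' q)
    (hK1 : ∀ γ ∈ Gamma0 M, ((Qs.prod : ℕ) : ℤ) ∣ γ 1 1 - 1 → γ ∈ K)
    (m : ℕ) (hK2 : ∀ γ ∈ Gamma0 M, γ ^ (2 * m + 1) ∈ K)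
    {N' : ℕ} (hN' : M * Qs.prod ∣ N') :
    TwistHyp K N' (fun ℓ => uCls M ℓ ^ m) where
  dvd := (Dvd.intro _ rfl).trans hN'
  neg := by
    have h1 : (-1 : SL(2, ℤ)) ∈ Gamma0 M := by
      rw [Gamma0_mem]
      simp
    have h2 := hK2 _ h1
    rwa [Odd.neg_one_pow ⟨m, rfl⟩] at h2
  twist := fun χ hχ => by
    have hMN : M ∣ N' := (Dvd.intro _ rfl).trans hN'
    have hQM : ((Qs.prod : ℕ) : ℤ) ∣ (M : ℤ) :=
      H564.list_prod_dvd_of_primes Qs hnd (fun q hq => (hQs q hq).1) _ (fun q hq => by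
        obtain ⟨-, M', hM, -⟩ := hQs q hq
        exact Int.natCast_dvd_natCast.mpr ⟨M', by rw [hM, mul_comm]⟩)
    -- `χ` is trivial on the units `≡ 1 mod ∏ Qs`
    have hε : ∀ d : ℤ, ((Qs.prod : ℕ) : ℤ) ∣ d - 1 → IsUnit ((d : ℤ) : ZMod M) →
        χ ((d : ℤ) : ZMod M) = 1 := by
      intro d hd hu
      obtain ⟨v, hv⟩ := hu
      obtain ⟨g, hg⟩ := dUnit_surjective (M := M) v
      have h1 : ((((g : SL(2, ℤ)) 1 1 : ℤ)) : ZMod M) = ((d : ℤ) : ZMod M) := by
        rw [← coe_dUnit, hg, hv]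
      have h2 : (M : ℤ) ∣ (g : SL(2, ℤ)) 1 1 - d := by
        rw [← ZMod.intCast_zmod_eq_zero_iff_dvd]
        push_cast
        rw [h1, sub_self]
      have h3 : ((Qs.prod : ℕ) : ℤ) ∣ (g : SL(2, ℤ)) 1 1 - 1 := by
        have := dvd_add (hQM.trans h2) hd
        rwa [sub_add_sub_cancel] at this
      have h4 := hχ g (hK1 _ g.2 h3)
      rw [hg, hv] at h4
      exact h4
    -- `χ ^ (2 m + 1) = 1`
    have hm : χ ^ (2 * m + 1) = 1 := by
      ext v
      rw [MulChar.pow_apply_coe, MulChar.one_apply_coe, ← map_pow, ← Units.val_pow_eq_pow_val]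
      obtain ⟨g, rfl⟩ := dUnit_surjective (M := M) v
      rw [← map_pow]
      exact hχ (g ^ (2 * m + 1)) (hK2 _ g.2)
    obtain ⟨L, ψ, hLnd, hLQ, hLprod, hψ, hram, hc, hd⟩ := H564.exists_psi χ Qs hnd hQs
      (H564.periodic_of_trivial Qs hnd (fun q hq => (hQs q hq).1) χ hε) m hm
    have hunit : ∀ d : ℤ, IsCoprime d (N' : ℤ) → IsUnit ((d : ℤ) : ZMod M) := by
      intro d hdN
      have h1 : IsCoprime d (M : ℤ) :=
        IsCoprime.of_isCoprime_of_dvd_right hdN (Int.natCast_dvd_natCast.mpr hMN)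
      exact (ZMod.coe_int_isUnit_iff_isCoprime d M).mpr h1.symm
    refine ⟨{ ψ := ψ
              L := L
              nodup := hLnd
              prime := fun q hq => hQs q (hLQ q hq)
              ψ_ne := hψ
              ram := hram
              dvd := (Nat.mul_dvd_mul_left M hLprod).trans hN'
              triv := fun d hdN => by
                rw [chiL_apply, chiZ_apply]
                exact hc d (hunit d hdN) }, ?_⟩
    intro ℓ hℓ hℓN
    have hcopN : Nat.Coprime ℓ N' := (Nat.Prime.coprime_iff_not_dvd hℓ).mpr hℓN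
    have hcopM : Nat.Coprime ℓ M := Nat.Coprime.coprime_dvd_right hMN hcopN
    have h1 := hd (ℓ : ℤ) (hunit _ (Nat.isCoprime_iff_coprime.mpr hcopN))
    show psiL ψ L ℓ = _
    rw [psiL]
    simp only [Int.cast_natCast] at h1
    rw [h1, Units.val_pow_eq_pow_val, map_pow, coe_uCls hcopM]

/-! ## The ramified primes belong to the list of every twist datum -/

/-- A prime `q₀` at which `χ` is visibly ramified belongs to the list `L` of every twist datum
of `χ`: if `d` is prime to `N'`, `d ≡ 1` modulo every `q ∈ L` with `q ≠ q₀`, and `χ(d) ≠ 1`,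
then `q₀ ∈ L`. -/
theorem mem_L_of_ne_one {N' : ℕ} {χ : DirichletCharacter ℂ M} (D : TwistDatum M N' χ)
    (q₀ : ℕ) (d : ℤ) (hd : IsCoprime d (N' : ℤ))
    (h1 : ∀ q ∈ D.L, q ≠ q₀ → ((q : ℕ) : ℤ) ∣ d - 1)
    (hχ : χ ((d : ℤ) : ZMod M) ≠ 1) : q₀ ∈ D.L := by
  by_contra hq₀
  apply hχ
  have h := D.triv d hd
  rw [chiL_apply, chiZ_apply] at h
  have h2 : (D.L.map fun q => D.ψ q ((d : ℤ) : ZMod q) ^ 2) = D.L.map fun _ => (1 : ℂ) := by
    refine List.map_congr_left fun q hq => ?_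
    have hne : q ≠ q₀ := fun h' => hq₀ (h' ▸ hq)
    have h3 : ((d : ℤ) : ZMod q) = 1 := by
      have := (ZMod.intCast_zmod_eq_zero_iff_dvd (d - 1) q).mpr (h1 q hq hne)
      push_cast at this
      exact sub_eq_zero.mp this
    rw [h3, map_one, one_pow]
  rw [h2, List.map_const', List.prod_replicate, one_pow, mul_one] at h
  exact h

/-- The list `L` of a twist datum of a character `χ` which is trivial on the units congruent to
`1` modulo `∏ Qs` is contained in `Qs`. -/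
theorem mem_of_mem_L {N' : ℕ} {χ : DirichletCharacter ℂ M} (D : TwistDatum M N' χ)
    (Qs : List ℕ) (hQs : ∀ q ∈ Qs, q.Prime)
    (hε : ∀ d : ℤ, ((Qs.prod : ℕ) : ℤ) ∣ d - 1 → IsUnit ((d : ℤ) : ZMod M) →
      χ ((d : ℤ) : ZMod M) = 1)
    {q : ℕ} (hq : q ∈ D.L) : q ∈ Qs := by
  by_contra hqQ
  obtain ⟨hqp, M', hM, hcop⟩ := D.prime q hq
  have hcopQ : Nat.Coprime Qs.prod q := by
    rw [Nat.coprime_list_prod_left_iff]
    intro q' hq'
    exact (Nat.coprime_primes (hQs q' hq') hqp).mpr fun h => hqQ (h ▸ hq')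
  have hcop' : Nat.Coprime (M' * Qs.prod) q := Nat.Coprime.mul_left hcop hcopQ
  obtain ⟨d, hd1, hdu, hdχ⟩ := D.ram q hq (M' * Qs.prod) hcop'
  apply hdχ
  rw [chiZ_apply]
  have hQd : ((Qs.prod : ℕ) : ℤ) ∣ d - 1 :=
    (Int.natCast_dvd_natCast.mpr (Dvd.intro_left M' rfl)).trans hd1
  have hM'd : ((M' : ℕ) : ℤ) ∣ d - 1 :=
    (Int.natCast_dvd_natCast.mpr (Dvd.intro _ rfl)).trans hd1
  refine hε d hQd ?_
  rw [ZMod.coe_int_isUnit_iff_isCoprime, hM, Nat.cast_mul]
  refine IsCoprime.mul_left ?_ ?_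
  · -- `M'` is prime to `d` since `M' ∣ d - 1`
    obtain ⟨c, hc⟩ := hM'd
    exact ⟨-c, 1, by linear_combination hc⟩
  · exact (ZMod.coe_int_isUnit_iff_isCoprime d q).mp hdu

/-- **The ramified primes of `χ` belong to the list of every twist datum** (unit form): if the
unit `u` modulo `M` is `≡ 1` modulo every prime `q ∈ Qs`, `q ≠ q₀`, and `χ(u) ≠ 1`, where `χ` is
trivial on the units congruent to `1` modulo `∏ Qs`, then `q₀ ∈ D.L`. -/
theorem mem_L_of_unit_ne_one [NeZero M] {N' : ℕ} [NeZero N'] {χ : DirichletCharacter ℂ M}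
    (D : TwistDatum M N' χ) (Qs : List ℕ) (hQs : ∀ q ∈ Qs, q.Prime)
    (hε : ∀ d : ℤ, ((Qs.prod : ℕ) : ℤ) ∣ d - 1 → IsUnit ((d : ℤ) : ZMod M) →
      χ ((d : ℤ) : ZMod M) = 1)
    (q₀ : ℕ) (u : (ZMod M)ˣ)
    (hu : ∀ q ∈ Qs, q ≠ q₀ → ∀ hqM : q ∣ M, ZMod.castHom hqM (ZMod q) (u : ZMod M) = 1)
    (hχ : χ (u : ZMod M) ≠ 1) : q₀ ∈ D.L := by
  have hMN : M ∣ N' := (Dvd.intro _ rfl).trans D.dvd
  obtain ⟨v, hv⟩ := ZMod.unitsMap_surjective hMN u
  have hvu : ZMod.castHom hMN (ZMod M) (v : ZMod N') = (u : ZMod M) := by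
    rw [← hv]
    rfl
  set d : ℤ := (((v : ZMod N').val : ℕ) : ℤ) with hd
  have hdv : ((d : ℤ) : ZMod N') = (v : ZMod N') := by
    rw [hd, Int.cast_natCast, ZMod.natCast_zmod_val]
  have hdu : ((d : ℤ) : ZMod M) = (u : ZMod M) := by
    rw [← hvu, ← hdv, map_intCast]
  have hdN : IsCoprime d (N' : ℤ) := by
    have : IsUnit ((d : ℤ) : ZMod N') := hdv ▸ v.isUnit
    exact ((ZMod.coe_int_isUnit_iff_isCoprime d N').mp this).symm
  refine mem_L_of_ne_one D q₀ d hdN ?_ (by rw [hdu]; exact hχ)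
  intro q hq hne
  have hqQ := mem_of_mem_L D Qs hQs hε hq
  have hqM : q ∣ M := (D.hL q hq).2
  have h1 := hu q hqQ hne hqM
  rw [← hdu, map_intCast] at h1
  rw [← ZMod.intCast_zmod_eq_zero_iff_dvd]
  push_cast
  rw [h1, sub_self]

end Fermat.Agent.S59.TW.H47
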